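import Mathlib
import Fermat.Prelude.Def_ModularCurve_IgusaScheme
import Fermat.Prelude.Def_ModularCurve_X0ModL
import Fermat.Prelude.Thm_ModularCurve_coeffMap_qExpand
import Fermat.Agent.S28.H205.Conv
import Fermat.Agent.S28.H565.PolyPrinciple
import Fermat.Agent.S28.H628.Hermite
import Fermat.Agent.S28.H868.Interface

/-!
# S28 (Igusa), analytic package, part 1 (helper146): the generators as functions on `ℍ`

The generators are the functions `τ ↦ j((aτ+b)/d)` and `τ ↦ d⁻¹² Δ((aτ+b)/d) / Δ(τ)`.  We prove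
* their convergent Laurent expansions in `t = exp(2πiτ/N)` exist, with coefficients in
  `ℤ[ζ_N, 1/N]`;
* the Hermite transformation law `j(d·γτ) = j((aτ+b)/d')`, and the same for the units.
-/

set_option autoImplicit false

noncomputable section

open UpperHalfPlane Complex ModularCurve HahnSeries ModularForm
open scoped MatrixGroups Manifold Real

namespace Fermat.Agent.S28.H146

open Fermat.Agent.S28.H205 (ConvTo tPar zetaU)

local notation "Δ" => ModularForm.discriminant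

/-! ## The coefficient ring `ℤ[ζ_N, 1/N]` -/

/-- The ring `ℤ[ζ_N, 1/N] ⊆ ℂ`. -/
def coeffRing (N : ℕ) : Subring ℂ :=
  Subring.closure ({Complex.exp (2 * Real.pi * Complex.I / N), (N : ℂ)⁻¹} : Set ℂ)

theorem zeta_mem_coeffRing (N : ℕ) : Complex.exp (2 * Real.pi * Complex.I / N) ∈ coeffRing N :=
  Subring.subset_closure (by simp)

theorem inv_mem_coeffRing (N : ℕ) : (N : ℂ)⁻¹ ∈ coeffRing N :=
  Subring.subset_closure (by simp)

theorem zeta_pow_self (N : ℕ) [NeZero N] : Complex.exp (2 * Real.pi * Complex.I / N) ^ N = 1 := by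
  have hN : (N : ℂ) ≠ 0 := by exact_mod_cast NeZero.ne N
  rw [← Complex.exp_nat_mul, mul_div_cancel₀ _ hN]
  exact Complex.exp_two_pi_mul_I

theorem zeta_inv_mem_coeffRing (N : ℕ) [NeZero N] :
    (Complex.exp (2 * Real.pi * Complex.I / N))⁻¹ ∈ coeffRing N := by
  have h : (Complex.exp (2 * Real.pi * Complex.I / N))⁻¹ =
      Complex.exp (2 * Real.pi * Complex.I / N) ^ (N - 1) := by
    have hne : Complex.exp (2 * Real.pi * Complex.I / N) ≠ 0 := Complex.exp_ne_zero _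
    have hN : 1 ≤ N := Nat.pos_of_ne_zero (NeZero.ne N)
    apply inv_eq_of_mul_eq_one_right
    rw [← pow_succ', Nat.sub_add_cancel hN, zeta_pow_self]
  rw [h]
  exact Subring.pow_mem _ (zeta_mem_coeffRing N) _

theorem zeta_zpow_mem_coeffRing (N : ℕ) [NeZero N] (k : ℤ) :
    Complex.exp (2 * Real.pi * Complex.I / N) ^ k ∈ coeffRing N := by
  rcases k with n | n
  · rw [Int.ofNat_eq_natCast, zpow_natCast]
    exact Subring.pow_mem _ (zeta_mem_coeffRing N) _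
  · rw [zpow_negSucc, ← inv_pow]
    exact Subring.pow_mem _ (zeta_inv_mem_coeffRing N) _

/-- `1/d ∈ ℤ[ζ_N, 1/N]` for `d ∣ N`. -/
theorem natCast_inv_mem_coeffRing {N d : ℕ} [NeZero N] (hd : d ∣ N) :
    (d : ℂ)⁻¹ ∈ coeffRing N := by
  obtain ⟨e, rfl⟩ := hd
  have hde : ((d * e : ℕ) : ℂ) ≠ 0 := by exact_mod_cast NeZero.ne (d * e)
  have hd0 : (d : ℂ) ≠ 0 := by
    intro h
    apply hde
    rw [Nat.cast_mul, h, zero_mul]
  have he0 : (e : ℂ) ≠ 0 := by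
    intro h
    apply hde
    rw [Nat.cast_mul, h, mul_zero]
  have h : (d : ℂ)⁻¹ = (e : ℂ) * ((d * e : ℕ) : ℂ)⁻¹ := by
    rw [Nat.cast_mul] at hde ⊢
    field_simp
  rw [h]
  exact Subring.mul_mem _ (natCast_mem _ e) (inv_mem_coeffRing _)

/-- powers of `exp(2πi b/d)`, `d ∣ N`, lie in `ℤ[ζ_N, 1/N]`. -/
theorem zetaU_zpow_mem_coeffRing {N d : ℕ} [NeZero N] (hd : d ∣ N) (b : ℤ) (n : ℤ) :
    (((zetaU d b) ^ n : ℂˣ) : ℂ) ∈ coeffRing N := by
  obtain ⟨e, rfl⟩ := hd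
  have hde : ((d * e : ℕ) : ℂ) ≠ 0 := by exact_mod_cast NeZero.ne (d * e)
  have hd0 : (d : ℂ) ≠ 0 := by
    intro h
    apply hde
    rw [Nat.cast_mul, h, zero_mul]
  have he0 : (e : ℂ) ≠ 0 := by
    intro h
    apply hde
    rw [Nat.cast_mul, h, mul_zero]
  have h : (((zetaU d b) ^ n : ℂˣ) : ℂ) =
      Complex.exp (2 * Real.pi * Complex.I / ((d * e : ℕ) : ℂ)) ^ ((e : ℤ) * b * n) := by
    rw [Units.val_zpow_eq_zpow_val, H205.coe_zetaU, ← Complex.exp_int_mul, ← Complex.exp_int_mul]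
    congr 1
    push_cast
    field_simp
  rw [h]
  exact zeta_zpow_mem_coeffRing _ _

/-! ## Laurent series with coefficients in a subring -/

/-- All coefficients of `φ` lie in the subring `S`. -/
def CoeffIn (S : Subring ℂ) (φ : LaurentSeries ℂ) : Prop := ∀ n : ℤ, φ.coeff n ∈ S

theorem CoeffIn.mul {S : Subring ℂ} {φ ψ : LaurentSeries ℂ} (hφ : CoeffIn S φ)
    (hψ : CoeffIn S ψ) : CoeffIn S (φ * ψ) := by
  intro n
  rw [HahnSeries.coeff_mul]
  exact Subring.sum_mem _ fun ij _ => Subring.mul_mem _ (hφ _) (hψ _)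

theorem coeffIn_C {S : Subring ℂ} {c : ℂ} (hc : c ∈ S) :
    CoeffIn S (HahnSeries.C c : LaurentSeries ℂ) := by
  intro n
  show ((HahnSeries.single 0 c : LaurentSeries ℂ)).coeff n ∈ S
  rw [HahnSeries.coeff_single]
  split_ifs
  · exact hc
  · exact Subring.zero_mem _

theorem CoeffIn.qExpand {S : Subring ℂ} {φ : LaurentSeries ℂ} (hφ : CoeffIn S φ)
    (m : ℕ) [NeZero m] : CoeffIn S (qExpand ℂ m φ) := by
  intro n
  by_cases h : (m : ℤ) ∣ n
  · obtain ⟨k, rfl⟩ := h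
    rw [qExpand_coeff_mul]
    exact hφ k
  · rw [qExpand_coeff_of_not_dvd m φ h]
    exact Subring.zero_mem _

theorem CoeffIn.twist {S : Subring ℂ} {φ : LaurentSeries ℂ} (hφ : CoeffIn S φ)
    (u : ℂˣ) (hu : ∀ n : ℤ, ((u ^ n : ℂˣ) : ℂ) ∈ S) : CoeffIn S (H205.twist u φ) := by
  intro n
  rw [H205.twist_coeff]
  exact Subring.mul_mem _ (hφ n) (hu n)

theorem coeffIn_coeffMap_int (S : Subring ℂ) (ψ : LaurentSeries ℤ) :
    CoeffIn S (coeffMap (Int.castRingHom ℂ) ψ) := by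
  intro n
  rw [coeffMap_coeff]
  exact intCast_mem S _

theorem coeffIn_jqModC (S : Subring ℂ) : CoeffIn S (jqModC ℂ) := by
  rw [← coeffMap_jqModC (Int.castRingHom ℂ)]
  exact coeffIn_coeffMap_int S _

theorem coeffIn_single_mul_ofPowerSeries_map (S : Subring ℂ) (k : ℤ) (P : PowerSeries ℤ) :
    CoeffIn S (HahnSeries.single k (1 : ℂ) *
      HahnSeries.ofPowerSeries ℤ ℂ (P.map (Int.castRingHom ℂ))) := by
  have h : HahnSeries.single k (1 : ℂ) * HahnSeries.ofPowerSeries ℤ ℂ (P.map (Int.castRingHom ℂ))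
      = coeffMap (Int.castRingHom ℂ)
          (HahnSeries.single k (1 : ℤ) * HahnSeries.ofPowerSeries ℤ ℤ P) := by
    rw [map_mul, coeffMap_single, coeffMap_ofPowerSeries, map_one (Int.castRingHom ℂ)]
  rw [h]
  exact coeffIn_coeffMap_int S _

theorem coeffIn_deltaSeriesC (S : Subring ℂ) : CoeffIn S H565.deltaSeriesC := by
  rw [H565.deltaSeriesC, ← H565.map_dedekindEtaUnit]
  exact coeffIn_single_mul_ofPowerSeries_map S 1 _

theorem coeffIn_deltaInvSeriesC (S : Subring ℂ) : CoeffIn S H565.deltaInvSeriesC := by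
  rw [H565.deltaInvSeriesC, H565.etaInvC]
  exact coeffIn_single_mul_ofPowerSeries_map S (-1) _

/-! ## The points `(aτ+b)/d` -/

theorem affH_im_pos (a b d : ℕ) (ha : 0 < a) (hd : 0 < d) (τ : ℍ) :
    0 < ((((a : ℂ) * τ + b) / d)).im := by
  have h : (((a : ℂ) * τ + b) / d) =
      (((a : ℝ) / d : ℝ) : ℂ) * τ + (((b : ℝ) / d : ℝ) : ℂ) := by
    push_cast
    ring
  rw [h, Complex.add_im, Complex.mul_im, Complex.ofReal_re, Complex.ofReal_im,
    Complex.ofReal_im, zero_mul, add_zero, add_zero, UpperHalfPlane.coe_im]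
  have := τ.im_pos
  positivity

/-- The point `(a τ + b) / d` of the upper half plane. -/
def affH (a b d : ℕ) (ha : 0 < a) (hd : 0 < d) (τ : ℍ) : ℍ :=
  ⟨((a : ℂ) * τ + b) / d, affH_im_pos a b d ha hd τ⟩

@[simp] theorem coe_affH (a b d : ℕ) (ha : 0 < a) (hd : 0 < d) (τ : ℍ) :
    ((affH a b d ha hd τ : ℍ) : ℂ) = ((a : ℂ) * τ + b) / d := rfl

/-- The function `τ ↦ j((aτ+b)/d)`. -/
def genJ (a b d : ℕ) (ha : 0 < a) (hd : 0 < d) : ℍ → ℂ :=
  fun τ => H565.jFun (affH a b d ha hd τ)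

/-- The function `τ ↦ d⁻¹² Δ((aτ+b)/d) / Δ(τ)`. -/
def genU (a b d : ℕ) (ha : 0 < a) (hd : 0 < d) : ℍ → ℂ :=
  fun τ => ((d : ℂ)⁻¹) ^ 12 * (Δ (affH a b d ha hd τ) * (Δ τ)⁻¹)

theorem genJ_congr {a b d a' b' d' : ℕ} (ha : 0 < a) (hd : 0 < d) (ha' : 0 < a') (hd' : 0 < d')
    (h1 : a = a') (h2 : b = b') (h3 : d = d') : genJ a b d ha hd = genJ a' b' d' ha' hd' := by
  subst h1 h2 h3
  rfl

theorem genU_congr {a b d a' b' d' : ℕ} (ha : 0 < a) (hd : 0 < d) (ha' : 0 < a') (hd' : 0 < d')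
    (h1 : a = a') (h2 : b = b') (h3 : d = d') : genU a b d ha hd = genU a' b' d' ha' hd' := by
  subst h1 h2 h3
  rfl

/-! ## Bridge between the two notions of convergent expansion -/

theorem convTo_of_hasTExp {N : ℕ} {f : ℍ → ℂ} {φ : LaurentSeries ℂ}
    (h : H565.HasTExp (N : ℝ) f φ) : ConvTo N φ f := h

theorem hasTExp_of_convTo {N : ℕ} {f : ℍ → ℂ} {φ : LaurentSeries ℂ}
    (h : ConvTo N φ f) : H565.HasTExp (N : ℝ) f φ := h

theorem convTo_one_of_hasTExp {f : ℍ → ℂ} {φ : LaurentSeries ℂ}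
    (h : H565.HasTExp 1 f φ) : ConvTo 1 φ f := by
  intro τ
  have := h τ
  simpa [tPar] using this

theorem convTo_jFun : ConvTo 1 (jqModC ℂ) H565.jFun := convTo_one_of_hasTExp H565.hasTExp_jFun

theorem convTo_discriminant : ConvTo 1 H565.deltaSeriesC Δ :=
  convTo_one_of_hasTExp H565.hasTExp_discriminant

theorem convTo_discriminant_inv : ConvTo 1 H565.deltaInvSeriesC (fun τ => (Δ τ)⁻¹) :=
  convTo_one_of_hasTExp H565.hasTExp_discriminant_inv

/-! ## Expansions of the generators -/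

/-- Substitution `τ ↦ (aτ+b)/d` followed by a change of level to `N` (for `d ∣ N`). -/
theorem convTo_subst_level {N a b d : ℕ} [NeZero N] (ha : 0 < a) (hd : 0 < d) (hdN : d ∣ N)
    {f : ℍ → ℂ} {φ : LaurentSeries ℂ} (h : ConvTo 1 φ f) (hφ : CoeffIn (coeffRing N) φ) :
    ∃ ψ : LaurentSeries ℂ, ConvTo N ψ (fun τ => f (affH a b d ha hd τ)) ∧
      CoeffIn (coeffRing N) ψ := by
  haveI : NeZero a := ⟨ha.ne'⟩
  have hNd : 0 < N / d := Nat.div_pos (Nat.le_of_dvd (Nat.pos_of_ne_zero (NeZero.ne N)) hdN) hd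
  haveI : NeZero (N / d) := ⟨hNd.ne'⟩
  have h1 := h.subst a d b (affH a b d ha hd) (fun τ => by simp)
  have h2 := h1.changeLevel (N / d)
  have hlev : 1 * d * (N / d) = N := by rw [one_mul, Nat.mul_div_cancel' hdN]
  rw [hlev] at h2
  refine ⟨_, h2, ?_⟩
  refine CoeffIn.qExpand (CoeffIn.qExpand (hφ.twist _ ?_) _) _
  intro n
  rw [one_mul]
  exact zetaU_zpow_mem_coeffRing hdN b n

theorem exists_convTo_genJ {N a b d : ℕ} [NeZero N] (ha : 0 < a) (hd : 0 < d) (hdN : d ∣ N) :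
    ∃ ψ : LaurentSeries ℂ, ConvTo N ψ (genJ a b d ha hd) ∧ CoeffIn (coeffRing N) ψ :=
  convTo_subst_level ha hd hdN convTo_jFun (coeffIn_jqModC _)

theorem exists_convTo_genU {N a b d : ℕ} [NeZero N] (ha : 0 < a) (hd : 0 < d) (hdN : d ∣ N) :
    ∃ ψ : LaurentSeries ℂ, ConvTo N ψ (genU a b d ha hd) ∧ CoeffIn (coeffRing N) ψ := by
  obtain ⟨ψ₁, h₁, c₁⟩ := convTo_subst_level (b := b) ha hd hdN convTo_discriminant
    (coeffIn_deltaSeriesC (coeffRing N))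
  have h₂ : ConvTo N (qExpand ℂ N H565.deltaInvSeriesC) (fun τ => (Δ τ)⁻¹) := by
    have := convTo_discriminant_inv.changeLevel N
    rwa [one_mul] at this
  have c₂ : CoeffIn (coeffRing N) (qExpand ℂ N H565.deltaInvSeriesC) :=
    (coeffIn_deltaInvSeriesC _).qExpand N
  have c₀ : CoeffIn (coeffRing N) (HahnSeries.C (((d : ℂ)⁻¹) ^ 12) : LaurentSeries ℂ) :=
    coeffIn_C (Subring.pow_mem _ (natCast_inv_mem_coeffRing hdN) _)
  refine ⟨HahnSeries.C (((d : ℂ)⁻¹) ^ 12) * (ψ₁ * qExpand ℂ N H565.deltaInvSeriesC),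
    ?_, c₀.mul (c₁.mul c₂)⟩
  exact ((H205.convTo_C N _).mul (h₁.mul h₂))

/-! ## The Hermite transformation law -/

open Fermat.Agent.S28.H628 (hermA hermB hermD hermA_pos hermD_pos)

theorem affH_smul_eq {d : ℕ} (hd : 0 < d) (γ : SL(2, ℤ)) :
    ∃ γ' : SL(2, ℤ), ∀ τ : ℍ,
      affH d 0 1 hd one_pos (γ • τ) =
        γ' • affH (hermA d γ) (hermB d γ) (hermD d γ) (hermA_pos hd γ) (hermD_pos hd γ) τ ∧
      (γ' 1 0 : ℂ) *
          (affH (hermA d γ) (hermB d γ) (hermD d γ) (hermA_pos hd γ) (hermD_pos hd γ) τ : ℂ) +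
        (γ' 1 1 : ℂ) = ((γ 1 0 : ℂ) * τ + (γ 1 1 : ℂ)) / (hermD d γ : ℂ) := by
  obtain ⟨γ', h⟩ := H628.hermite_smul_full hd γ
  refine ⟨γ', fun τ => ?_⟩
  obtain ⟨h1, h2⟩ := h τ
    (affH (hermA d γ) (hermB d γ) (hermD d γ) (hermA_pos hd γ) (hermD_pos hd γ) τ) rfl
  refine ⟨?_, h2⟩
  apply UpperHalfPlane.ext
  rw [h1, coe_affH]
  simp

theorem genJ_smul {d : ℕ} (hd : 0 < d) (γ : SL(2, ℤ)) (τ : ℍ) :
    genJ d 0 1 hd one_pos (γ • τ) =
      genJ (hermA d γ) (hermB d γ) (hermD d γ) (hermA_pos hd γ) (hermD_pos hd γ) τ := by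
  obtain ⟨γ', h⟩ := affH_smul_eq hd γ
  simp only [genJ]
  rw [(h τ).1, H565.jFun_smul]

theorem genU_smul {d : ℕ} (hd : 0 < d) (γ : SL(2, ℤ)) (τ : ℍ) :
    genU d 0 1 hd one_pos (γ • τ) =
      genU (hermA d γ) (hermB d γ) (hermD d γ) (hermA_pos hd γ) (hermD_pos hd γ) τ := by
  obtain ⟨γ', h⟩ := affH_smul_eq hd γ
  obtain ⟨h1, h2⟩ := h τ
  simp only [genU]
  rw [h1, H565.discriminant_smul γ' _, H565.discriminant_smul γ τ, h2]
  have hx := H565.denom_ne_zero' γ τ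
  have hΔ := ModularForm.discriminant_ne_zero τ
  have hd' : (hermD d γ : ℂ) ≠ 0 := by exact_mod_cast (hermD_pos hd γ).ne'
  simp only [Nat.cast_one, inv_one, one_pow, one_mul]
  rw [div_zpow]
  have e1 : ((γ 1 0 : ℂ) * τ + (γ 1 1 : ℂ)) ^ (12 : ℤ) ≠ 0 := zpow_ne_zero _ hx
  have e2 : ((hermD d γ : ℂ)⁻¹) ^ 12 = ((hermD d γ : ℂ) ^ (12 : ℤ))⁻¹ := by
    rw [inv_pow]
    norm_cast
  rw [e2]
  have e3 : (hermD d γ : ℂ) ^ (12 : ℤ) ≠ 0 := zpow_ne_zero _ hd'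
  field_simp

end Fermat.Agent.S28.H146
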