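import Fermat.Agent.S28.H146.Gens

/-!
# S28 (Igusa), analytic package, part 2 (helper146): construction of `ModFunPackage N`

Index set: the finite SET OF FUNCTIONS `{τ ↦ j(d·γτ), τ ↦ Δ(d·γτ)/Δ(γτ) : d ∣ N, γ ∈ SL(2,ℤ)}`,
with `SL(2,ℤ)` acting by `f ↦ f ∘ γ⁻¹`; `gen f` is the unique convergent Laurent expansion of `f`
in `t = exp(2πiτ/N)`.
-/

set_option autoImplicit false

noncomputable section

open UpperHalfPlane Complex ModularCurve HahnSeries ModularForm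
open scoped MatrixGroups Manifold Real

namespace Fermat.Agent.S28.H146

open Fermat.Agent.S28.H205 (ConvTo tPar zetaU)
open Fermat.Agent.S28.H628 (hermA hermB hermD hermA_pos hermD_pos)

local notation "Δ" => ModularForm.discriminant

/-! ## The index set -/

/-- The set of generator functions of level `N`. -/
def genSet (N : ℕ) : Set (ℍ → ℂ) :=
  {f | ∃ (d : ℕ) (hd : 0 < d), d ∣ N ∧ ∃ γ : SL(2, ℤ),
      (f = fun τ => genJ d 0 1 hd one_pos (γ • τ)) ∨
      (f = fun τ => genU d 0 1 hd one_pos (γ • τ))}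

theorem genSet_normal {N : ℕ} [NeZero N] {f : ℍ → ℂ} (hf : f ∈ genSet N) :
    ∃ (a b d : ℕ) (ha : 0 < a) (hd : 0 < d), a ≤ N ∧ b ≤ N ∧ d ≤ N ∧ d ∣ N ∧
      (f = genJ a b d ha hd ∨ f = genU a b d ha hd) := by
  obtain ⟨d₀, hd₀, hd₀N, γ, h⟩ := hf
  have hN : 0 < N := Nat.pos_of_ne_zero (NeZero.ne N)
  have h1 : hermA d₀ γ ≤ N :=
    (Nat.le_of_dvd hd₀ (H628.hermA_dvd d₀ γ)).trans (Nat.le_of_dvd hN hd₀N)
  have h3 : hermD d₀ γ ∣ N := (H628.hermD_dvd d₀ γ).trans hd₀N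
  have h3' : hermD d₀ γ ≤ N := Nat.le_of_dvd hN h3
  have h2 : hermB d₀ γ ≤ N := (H628.hermB_lt hd₀ γ).le.trans h3'
  refine ⟨hermA d₀ γ, hermB d₀ γ, hermD d₀ γ, hermA_pos hd₀ γ, hermD_pos hd₀ γ, h1, h2, h3', h3, ?_⟩
  rcases h with h | h
  · left
    rw [h]
    funext τ
    exact genJ_smul hd₀ γ τ
  · right
    rw [h]
    funext τ
    exact genU_smul hd₀ γ τ

/-- auxiliary total enumeration of the generator functions -/
def genEnum (N : ℕ) (x : Fin (N + 1) × Fin (N + 1) × Fin (N + 1) × Bool) : ℍ → ℂ :=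
  if h : 0 < (x.1 : ℕ) ∧ 0 < (x.2.2.1 : ℕ) then
    (if x.2.2.2 = true then genJ x.1 x.2.1 x.2.2.1 h.1 h.2 else genU x.1 x.2.1 x.2.2.1 h.1 h.2)
  else 0

theorem genSet_finite (N : ℕ) [NeZero N] : (genSet N).Finite := by
  refine (Set.finite_range (genEnum N)).subset ?_
  intro f hf
  obtain ⟨a, b, d, ha, hd, haN, hbN, hdN, -, h⟩ := genSet_normal hf
  rcases h with h | h
  · refine ⟨(⟨a, Nat.lt_succ_of_le haN⟩, ⟨b, Nat.lt_succ_of_le hbN⟩,
      ⟨d, Nat.lt_succ_of_le hdN⟩, true), ?_⟩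
    rw [h, genEnum, dif_pos ⟨ha, hd⟩, if_pos rfl]
  · refine ⟨(⟨a, Nat.lt_succ_of_le haN⟩, ⟨b, Nat.lt_succ_of_le hbN⟩,
      ⟨d, Nat.lt_succ_of_le hdN⟩, false), ?_⟩
    rw [h, genEnum, dif_pos ⟨ha, hd⟩, if_neg (by simp)]

theorem exists_convTo_of_mem {N : ℕ} [NeZero N] {f : ℍ → ℂ} (hf : f ∈ genSet N) :
    ∃ ψ : LaurentSeries ℂ, ConvTo N ψ f ∧ CoeffIn (coeffRing N) ψ := by
  obtain ⟨a, b, d, ha, hd, -, -, -, hdN, h⟩ := genSet_normal hf
  rcases h with h | h
  · rw [h]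
    exact exists_convTo_genJ ha hd hdN
  · rw [h]
    exact exists_convTo_genU ha hd hdN

/-- The index type of the package. -/
abbrev Idx (N : ℕ) : Type := ↥(genSet N)

/-- The expansion of a generator. -/
def genSer (N : ℕ) [NeZero N] (i : Idx N) : LaurentSeries ℂ :=
  Classical.choose (exists_convTo_of_mem i.2)

theorem genSer_convTo (N : ℕ) [NeZero N] (i : Idx N) : ConvTo N (genSer N i) i.1 :=
  (Classical.choose_spec (exists_convTo_of_mem i.2)).1

theorem genSer_coeffIn (N : ℕ) [NeZero N] (i : Idx N) : CoeffIn (coeffRing N) (genSer N i) :=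
  (Classical.choose_spec (exists_convTo_of_mem i.2)).2

theorem genSer_eq {N : ℕ} [NeZero N] (i : Idx N) {ψ : LaurentSeries ℂ} (h : ConvTo N ψ i.1) :
    genSer N i = ψ :=
  (genSer_convTo N i).series_unique h

/-! ## The action of `SL(2,ℤ)` -/

/-- `f ↦ f ∘ γ⁻¹`. -/
def actFun (γ : SL(2, ℤ)) (f : ℍ → ℂ) : ℍ → ℂ := fun τ => f (γ⁻¹ • τ)

@[simp] theorem actFun_apply (γ : SL(2, ℤ)) (f : ℍ → ℂ) (τ : ℍ) : actFun γ f τ = f (γ⁻¹ • τ) := rfl

theorem actFun_one (f : ℍ → ℂ) : actFun 1 f = f := by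
  funext τ
  simp

theorem actFun_mul (γ₁ γ₂ : SL(2, ℤ)) (f : ℍ → ℂ) :
    actFun (γ₁ * γ₂) f = actFun γ₁ (actFun γ₂ f) := by
  funext τ
  simp [mul_smul]

theorem actFun_mem {N : ℕ} {f : ℍ → ℂ} (hf : f ∈ genSet N) (γ : SL(2, ℤ)) :
    actFun γ f ∈ genSet N := by
  obtain ⟨d, hd, hdN, γ₀, h⟩ := hf
  refine ⟨d, hd, hdN, γ₀ * γ⁻¹, ?_⟩
  rcases h with h | h
  · left
    rw [h]
    funext τ
    simp [mul_smul]
  · right
    rw [h]
    funext τ
    simp [mul_smul]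

/-- the permutation of the index set attached to `γ` -/
def permEquiv (N : ℕ) (γ : SL(2, ℤ)) : Equiv.Perm (Idx N) where
  toFun i := ⟨actFun γ i.1, actFun_mem i.2 γ⟩
  invFun i := ⟨actFun γ⁻¹ i.1, actFun_mem i.2 γ⁻¹⟩
  left_inv i := by
    apply Subtype.ext
    show actFun γ⁻¹ (actFun γ i.1) = i.1
    rw [← actFun_mul, inv_mul_cancel, actFun_one]
  right_inv i := by
    apply Subtype.ext
    show actFun γ (actFun γ⁻¹ i.1) = i.1
    rw [← actFun_mul, mul_inv_cancel, actFun_one]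

@[simp] theorem permEquiv_apply_coe (N : ℕ) (γ : SL(2, ℤ)) (i : Idx N) :
    ((permEquiv N γ i : Idx N) : ℍ → ℂ) = actFun γ i.1 := rfl

/-- the action of `SL(2,ℤ)` on the index set -/
def permHom (N : ℕ) : SL(2, ℤ) →* Equiv.Perm (Idx N) where
  toFun := permEquiv N
  map_one' := by
    ext i τ
    simp
  map_mul' γ₁ γ₂ := by
    ext i τ
    simp [mul_smul]

@[simp] theorem permHom_apply_coe (N : ℕ) (γ : SL(2, ℤ)) (i : Idx N) :
    ((permHom N γ i : Idx N) : ℍ → ℂ) = actFun γ i.1 := rfl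

/-! ## Polynomial expressions in the generators -/

theorem convTo_aeval {N : ℕ} {ι : Type*} (F : ι → ℍ → ℂ) (Φ : ι → LaurentSeries ℂ)
    (hF : ∀ i, ConvTo N (Φ i) (F i)) (p : MvPolynomial ι ℂ) :
    ConvTo N (MvPolynomial.aeval Φ p) (fun τ => MvPolynomial.eval (fun i => F i τ) p) := by
  induction p using MvPolynomial.induction_on with
  | C a =>
    rw [MvPolynomial.aeval_C]
    have hC : (algebraMap ℂ (LaurentSeries ℂ)) a = (HahnSeries.C a : LaurentSeries ℂ) := by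
      have h1 : algebraMap ℂ (PowerSeries ℂ) a = PowerSeries.C a := by
        simp
      rw [HahnSeries.algebraMap_apply', h1, HahnSeries.ofPowerSeries_C]
    rw [hC]
    exact (H205.convTo_C N a).congr_fun fun τ => by simp
  | add p q hp hq =>
    rw [map_add]
    exact (hp.add hq).congr_fun fun τ => by simp
  | mul_X p i hp =>
    rw [map_mul, MvPolynomial.aeval_X]
    exact (hp.mul (hF i)).congr_fun fun τ => by simp

/-- the function on `ℍ` attached to a polynomial expression in the generators -/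
def polyFun (N : ℕ) (p : MvPolynomial (Idx N) ℂ) : ℍ → ℂ :=
  fun τ => MvPolynomial.eval (fun i : Idx N => i.1 τ) p

theorem convTo_polyFun (N : ℕ) [NeZero N] (p : MvPolynomial (Idx N) ℂ) :
    ConvTo N (MvPolynomial.aeval (genSer N) p) (polyFun N p) :=
  convTo_aeval (fun i : Idx N => i.1) (genSer N) (genSer_convTo N) p

theorem convTo_polyFun_perm (N : ℕ) [NeZero N] (γ : SL(2, ℤ)) (p : MvPolynomial (Idx N) ℂ) :
    ConvTo N (MvPolynomial.aeval (genSer N ∘ permHom N γ) p) (actFun γ (polyFun N p)) :=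
  convTo_aeval (fun i : Idx N => actFun γ i.1) (genSer N ∘ permHom N γ)
    (fun i => genSer_convTo N (permHom N γ i)) p

theorem package_rel (N : ℕ) [NeZero N] (γ : SL(2, ℤ)) (p : MvPolynomial (Idx N) ℂ)
    (h : MvPolynomial.aeval (genSer N) p = 0) :
    MvPolynomial.aeval (genSer N ∘ permHom N γ) p = 0 := by
  have h1 := convTo_polyFun N p
  rw [h] at h1
  have h2 : polyFun N p = 0 := h1.fun_unique (H205.convTo_zero N)
  have h3 := convTo_polyFun_perm N γ p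
  rw [h2] at h3
  exact h3.zero_fun

theorem iotaN_jq (N : ℕ) [NeZero N] : iotaN N jq = qExpand ℂ N (jqModC ℂ) := by
  rw [iotaN, RingHom.comp_apply, ← jqModC_rat, coeffMap_jqModC]

theorem package_inv (N : ℕ) [NeZero N] (p : MvPolynomial (Idx N) ℂ)
    (h : ∀ γ : SL(2, ℤ), MvPolynomial.aeval (genSer N ∘ permHom N γ) p =
      MvPolynomial.aeval (genSer N) p) :
    MvPolynomial.aeval (genSer N) p ∈ Algebra.adjoin ℂ {iotaN N jq} := by
  have h1 := convTo_polyFun N p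
  have hinv : ∀ (γ : SL(2, ℤ)) (τ : ℍ), polyFun N p (γ • τ) = polyFun N p τ := by
    intro γ τ
    have h3 := convTo_polyFun_perm N γ⁻¹ p
    rw [h γ⁻¹] at h3
    have := congrFun (h3.fun_unique h1) τ
    simpa using this
  obtain ⟨Q, -, hQ⟩ := H565.exists_polynomial_of_invariant h1.mdiff hinv (hasTExp_of_convTo h1)
  rw [hQ, iotaN_jq]
  exact Polynomial.aeval_mem_adjoin_singleton _ _

/-! ## The translation `T` -/

theorem coe_T_inv_smul (τ : ℍ) :
    (((ModularGroup.T⁻¹ : SL(2, ℤ)) • τ : ℍ) : ℂ) = τ + ((-1 : ℤ) : ℂ) := by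
  have h := UpperHalfPlane.modular_T_zpow_smul τ (-1)
  rw [zpow_neg_one] at h
  rw [h, UpperHalfPlane.coe_vadd]
  push_cast
  ring

theorem twist_eq (u : ℂˣ) (φ : LaurentSeries ℂ) : H205.twist u φ = twist u φ := by
  ext n
  rw [H205.twist_coeff, twist_coeff, mul_comm]

theorem zetaU_pow (N : ℕ) [NeZero N] (b : ℤ) : zetaU N b ^ N = 1 := by
  ext
  rw [Units.val_pow_eq_pow_val, H205.coe_zetaU, ← Complex.exp_nat_mul, Units.val_one]
  have hN : (N : ℂ) ≠ 0 := by exact_mod_cast NeZero.ne N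
  have h : (N : ℂ) * (2 * π * Complex.I * b / N) = b * (2 * π * Complex.I) := by
    field_simp
  rw [h]
  exact Complex.exp_int_mul_two_pi_mul_I b

theorem package_perm_T (N : ℕ) [NeZero N] (i : Idx N) :
    genSer N (permHom N ModularGroup.T i) = twist (zetaU N (-1)) (genSer N i) := by
  rw [← twist_eq]
  apply genSer_eq
  exact (genSer_convTo N i).twist (-1) (fun τ => (ModularGroup.T⁻¹ : SL(2, ℤ)) • τ) coe_T_inv_smul

/-! ## The distinguished generators -/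

/-- the index of `τ ↦ j(dτ)` -/
def idxJ (N d : ℕ) (hd : 0 < d) (hdN : d ∣ N) : Idx N :=
  ⟨fun τ => genJ d 0 1 hd one_pos ((1 : SL(2, ℤ)) • τ), ⟨d, hd, hdN, 1, Or.inl rfl⟩⟩

/-- the index of `τ ↦ Δ(dτ)/Δ(τ)` -/
def idxU (N d : ℕ) (hd : 0 < d) (hdN : d ∣ N) : Idx N :=
  ⟨fun τ => genU d 0 1 hd one_pos ((1 : SL(2, ℤ)) • τ), ⟨d, hd, hdN, 1, Or.inr rfl⟩⟩

theorem idxJ_coe (N d : ℕ) (hd : 0 < d) (hdN : d ∣ N) :
    (idxJ N d hd hdN).1 = genJ d 0 1 hd one_pos := by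
  funext τ
  simp [idxJ]

theorem idxU_coe (N d : ℕ) (hd : 0 < d) (hdN : d ∣ N) :
    (idxU N d hd hdN).1 = genU d 0 1 hd one_pos := by
  funext τ
  simp [idxU]

theorem coeffMap_deltaq : coeffMap (algebraMap ℚ ℂ) deltaq = H565.deltaSeriesC := by
  have h : PowerSeries.map (algebraMap ℚ ℂ) (PowerSeries.map (Int.castRingHom ℚ) dedekindEtaUnit)
      = PowerSeries.map (Int.castRingHom ℂ) dedekindEtaUnit := by
    ext n
    simp [PowerSeries.coeff_map]
  rw [deltaq, map_mul, coeffMap_single, coeffMap_ofPowerSeries, map_one (algebraMap ℚ ℂ),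
    H565.deltaSeriesC, ← H565.map_dedekindEtaUnit, h]

theorem iotaN_qExpand_jq (N d : ℕ) [NeZero N] [NeZero d] :
    iotaN N (qExpand ℚ d jq) = qExpand ℂ N (qExpand ℂ d (jqModC ℂ)) := by
  rw [iotaN, RingHom.comp_apply, coeffMap_qExpand, ← jqModC_rat, coeffMap_jqModC]

theorem iotaN_unitq (N p : ℕ) [NeZero N] [NeZero p] :
    iotaN N (unitq p) =
      qExpand ℂ N (qExpand ℂ p H565.deltaSeriesC) * qExpand ℂ N H565.deltaInvSeriesC := by
  have h1 : iotaN N deltaq = qExpand ℂ N H565.deltaSeriesC := by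
    rw [iotaN, RingHom.comp_apply, coeffMap_deltaq]
  have h2 : iotaN N (qExpand ℚ p deltaq) = qExpand ℂ N (qExpand ℂ p H565.deltaSeriesC) := by
    rw [iotaN, RingHom.comp_apply, coeffMap_qExpand, coeffMap_deltaq]
  have h3 : qExpand ℂ N H565.deltaSeriesC * qExpand ℂ N H565.deltaInvSeriesC = 1 := by
    rw [← map_mul, H565.deltaSeriesC_mul_inv, map_one]
  rw [unitq, map_div₀, h1, h2, div_eq_mul_inv]
  congr 1
  exact inv_eq_of_mul_eq_one_right h3

theorem genSer_idxJ (N d : ℕ) [NeZero N] [NeZero d] (hd : 0 < d) (hdN : d ∣ N) :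
    genSer N (idxJ N d hd hdN) = iotaN N (qExpand ℚ d jq) := by
  apply genSer_eq
  rw [idxJ_coe, iotaN_qExpand_jq]
  have h1 := convTo_jFun.qExpand d (affH d 0 1 hd one_pos) (fun τ => by simp)
  have h2 := h1.changeLevel N
  rw [one_mul] at h2
  exact h2

theorem genSer_idxU (N p : ℕ) [NeZero N] [NeZero p] (hp : 0 < p) (hpN : p ∣ N) :
    genSer N (idxU N p hp hpN) = iotaN N (unitq p) := by
  apply genSer_eq
  rw [idxU_coe, iotaN_unitq]
  have h1 := convTo_discriminant.qExpand p (affH p 0 1 hp one_pos) (fun τ => by simp)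
  have h2 := h1.changeLevel N
  rw [one_mul] at h2
  have h3 := convTo_discriminant_inv.changeLevel N
  rw [one_mul] at h3
  exact (h2.mul h3).congr_fun fun τ => by simp [genU]

theorem genJ_smul_of_mem {M d : ℕ} (hd : 0 < d) (hdM : d ∣ M) {γ : SL(2, ℤ)}
    (hγ : γ ∈ CongruenceSubgroup.Gamma0 M) (τ : ℍ) :
    genJ d 0 1 hd one_pos (γ • τ) = genJ d 0 1 hd one_pos τ := by
  rw [genJ_smul hd γ τ]
  obtain ⟨hA, hB, hD⟩ := H628.herm_Gamma0_mul hd hdM hγ 1
  rw [mul_one] at hA hB hD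
  obtain ⟨hA1, hB1, hD1⟩ := H628.herm_one hd
  exact congrFun (genJ_congr _ _ _ _ (hA.trans hA1) (hB.trans hB1) (hD.trans hD1)) τ

theorem genU_smul_of_mem {M d : ℕ} (hd : 0 < d) (hdM : d ∣ M) {γ : SL(2, ℤ)}
    (hγ : γ ∈ CongruenceSubgroup.Gamma0 M) (τ : ℍ) :
    genU d 0 1 hd one_pos (γ • τ) = genU d 0 1 hd one_pos τ := by
  rw [genU_smul hd γ τ]
  obtain ⟨hA, hB, hD⟩ := H628.herm_Gamma0_mul hd hdM hγ 1
  rw [mul_one] at hA hB hD
  obtain ⟨hA1, hB1, hD1⟩ := H628.herm_one hd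
  exact congrFun (genU_congr _ _ _ _ (hA.trans hA1) (hB.trans hB1) (hD.trans hD1)) τ

theorem permHom_idxJ {N M d : ℕ} (hd : 0 < d) (hdN : d ∣ N) (hdM : d ∣ M) {γ : SL(2, ℤ)}
    (hγ : γ ∈ CongruenceSubgroup.Gamma0 M) : permHom N γ (idxJ N d hd hdN) = idxJ N d hd hdN := by
  apply Subtype.ext
  funext τ
  rw [permHom_apply_coe, actFun_apply, idxJ_coe]
  exact genJ_smul_of_mem hd hdM (inv_mem hγ) τ

theorem permHom_idxU {N M d : ℕ} (hd : 0 < d) (hdN : d ∣ N) (hdM : d ∣ M) {γ : SL(2, ℤ)}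
    (hγ : γ ∈ CongruenceSubgroup.Gamma0 M) : permHom N γ (idxU N d hd hdN) = idxU N d hd hdN := by
  apply Subtype.ext
  funext τ
  rw [permHom_apply_coe, actFun_apply, idxU_coe]
  exact genU_smul_of_mem hd hdM (inv_mem hγ) τ

/-! ## The package -/

/-- **The analytic package** (helper868's interface), constructed unconditionally. -/
def modFunPackage (N : ℕ) [NeZero N] : ModFunPackage N where
  ι := Idx N
  fin := (genSet_finite N).fintype
  gen := genSer N
  perm := permHom N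
  rel := package_rel N
  inv := package_inv N
  coeff_mem := fun i n => genSer_coeffIn N i n
  twistUnit := zetaU N (-1)
  twistUnit_pow := zetaU_pow N (-1)
  perm_T := package_perm_T N
  idxJ := fun d _ hd => idxJ N d (Nat.pos_of_ne_zero (NeZero.ne d)) hd
  gen_idxJ := fun d _ hd => genSer_idxJ N d (Nat.pos_of_ne_zero (NeZero.ne d)) hd
  fixJ := fun d _ hd _ hγ => permHom_idxJ (Nat.pos_of_ne_zero (NeZero.ne d)) hd hd hγ
  idxU := fun p _ _ hpN => idxU N p (Nat.pos_of_ne_zero (NeZero.ne p)) hpN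
  gen_idxU := fun p _ _ hpN => genSer_idxU N p (Nat.pos_of_ne_zero (NeZero.ne p)) hpN
  fixU := fun p _ _ hpN _ hγ =>
    permHom_idxU (Nat.pos_of_ne_zero (NeZero.ne p)) hpN dvd_rfl hγ

/-- **helper868's analytic goal**: the analytic package exists for every level `N`. -/
theorem exists_modFunPackage (N : ℕ) [NeZero N] : Nonempty (ModFunPackage N) :=
  ⟨modFunPackage N⟩

end Fermat.Agent.S28.H146
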